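import Mathlib

/-!
# S36 / MOD3 — leaf SHEET, abstract part (helper860; Mathlib only)

`V` a valuation ring of a field `F`.

* `mem_nonunits_comap_iff`, `inv_mem_of_sub_mem_nonunits`, `aeval_sub_aeval_mem_nonunits`,
  `not_C_dvd_expand` : small tools;
* `eval₂_aeval_mem`, `eval₂_kron` : evaluation of two-variable integral polynomials;
* `exists_pow_congr` : if `b ≡ a ^ q` and `(c ^ q - b) (c - b ^ q) ≡ 0` modulo `𝔪_V` (residue
  characteristic `q`), then `a b c ≡ a ^ k` for some `k > 0`;
* `gauss_mid_abs` : the Gauss property of `x = α(j) α(j_q) c` at a valuation ring `V` lying over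
  `V'` along `α`, from the Gauss property of `j` at `V'`.
-/

set_option autoImplicit false
set_option linter.style.haveILetI false
set_option linter.unusedSectionVars false
set_option linter.unusedVariables false

noncomputable section

namespace Fermat.Agent.S36.Mod3.H860

open Polynomial

section Tools

variable {R F F' : Type*} [CommRing R] [Field F] [Algebra R F] [Field F']

/-- Nonunits of the pull-back of a valuation ring along a homomorphism of fields. -/
theorem mem_nonunits_comap_iff (V : ValuationSubring F) (α : F' →+* F) (f : F') :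
    f ∈ (V.comap α).nonunits ↔ α f ∈ V.nonunits := by
  rw [ValuationSubring.mem_nonunits_iff_or, ValuationSubring.mem_nonunits_iff_or,
    ValuationSubring.mem_comap, map_inv₀, map_eq_zero]

/-- a unit plus a non-unit is a unit (inverse form) -/
theorem inv_mem_of_sub_mem_nonunits (V : ValuationSubring F) {a b : F} (hb0 : b ≠ 0)
    (hb : b ∈ V) (hbi : b⁻¹ ∈ V) (hab : a - b ∈ V.nonunits) : a⁻¹ ∈ V := by
  have h1 : V.valuation b = 1 := by
    apply le_antisymm ((V.valuation_le_one_iff _).mpr hb)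
    have h2 : V.valuation b⁻¹ ≤ 1 := (V.valuation_le_one_iff _).mpr hbi
    rw [map_inv₀] at h2
    have hv0 : V.valuation b ≠ 0 := (Valuation.ne_zero_iff _).mpr hb0
    exact (inv_le_one₀ (zero_lt_iff.mpr hv0)).mp h2
  have h3 : V.valuation (a - b) < 1 := (V.mem_nonunits_iff).mp hab
  have h4 : V.valuation a = 1 := by
    have e : a = b + (a - b) := by ring
    rw [e, ← h1]
    exact Valuation.map_add_eq_of_lt_left _ (by rw [h1]; exact h3)
  rw [← V.valuation_le_one_iff, map_inv₀, h4, inv_one]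

/-- polynomial congruence modulo the maximal ideal of a valuation ring -/
theorem aeval_sub_aeval_mem_nonunits (V : ValuationSubring F)
    (hbase : ∀ r : R, algebraMap R F r ∈ V) {x y : F} (hx : x ∈ V) (hy : y ∈ V)
    (hxy : x - y ∈ V.nonunits) (p : Polynomial R) :
    aeval x p - aeval y p ∈ V.nonunits := by
  set ρ : R →+* V := (algebraMap R F).codRestrict V.toSubring hbase with hρ
  have hsub : (V.subtype : V →+* F).comp ρ = algebraMap R F := by
    ext r; rfl
  have hcoe : ∀ z : V, ((p.eval₂ ρ z : V) : F) = aeval (z : F) p := by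
    intro z
    have h := Polynomial.hom_eval₂ p ρ (V.subtype : V →+* F) z
    rw [hsub] at h
    rw [Polynomial.aeval_def]
    exact h
  have hdvd : (⟨x, hx⟩ - ⟨y, hy⟩ : V) ∣ (p.map ρ).eval ⟨x, hx⟩ - (p.map ρ).eval ⟨y, hy⟩ :=
    Polynomial.sub_dvd_eval_sub _ _ _
  obtain ⟨c, hc⟩ := hdvd
  rw [Polynomial.eval_map, Polynomial.eval_map] at hc
  have hc' : aeval x p - aeval y p = (x - y) * (c : F) := by
    have h := congrArg (V.subtype : V →+* F) hc
    rw [map_sub, map_mul, map_sub] at h
    rw [← hcoe ⟨x, hx⟩, ← hcoe ⟨y, hy⟩]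
    exact h
  rw [hc', V.mem_nonunits_iff, map_mul]
  calc V.valuation (x - y) * V.valuation (c : F)
      ≤ V.valuation (x - y) * 1 := mul_le_mul' le_rfl ((V.valuation_le_one_iff _).mpr c.2)
    _ = V.valuation (x - y) := mul_one _
    _ < 1 := (V.mem_nonunits_iff).mp hxy

/-- `w ∤ p ⟹ w ∤ p(X^k)` -/
theorem not_C_dvd_expand {w : R} {k : ℕ} (hk : 0 < k) {p : Polynomial R}
    (hp : ¬ Polynomial.C w ∣ p) : ¬ Polynomial.C w ∣ Polynomial.expand R k p := by
  intro h
  apply hp
  rw [Polynomial.C_dvd_iff_dvd_coeff] at h ⊢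
  intro i
  have := h (i * k)
  rwa [Polynomial.coeff_expand_mul hk] at this

theorem not_C_dvd_of_exists_coeff {w : R} {p : Polynomial R}
    (hp : ∃ i, ¬ w ∣ p.coeff i) : ¬ Polynomial.C w ∣ p := by
  obtain ⟨i, hi⟩ := hp
  intro h
  exact hi ((Polynomial.C_dvd_iff_dvd_coeff _ _).mp h i)

end Tools

section Kron

variable {F : Type*} [Field F]

/-- evaluation of a two-variable integral polynomial at elements of a valuation ring -/
theorem eval₂_aeval_mem (V : ValuationSubring F) {b c : F} (hb : b ∈ V) (hc : c ∈ V)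
    (Θ : Polynomial (Polynomial ℤ)) :
    Θ.eval₂ (Polynomial.aeval (R := ℤ) b).toRingHom c ∈ V := by
  have h := Polynomial.hom_eval₂ Θ (Polynomial.aeval (R := ℤ) (⟨b, hb⟩ : V)).toRingHom
    (V.subtype : V →+* F) ⟨c, hc⟩
  have hcomp : (V.subtype : V →+* F).comp (Polynomial.aeval (R := ℤ) (⟨b, hb⟩ : V)).toRingHom =
      (Polynomial.aeval (R := ℤ) b).toRingHom := by
    apply Polynomial.ringHom_ext
    · intro n
      simp
    · simp
  rw [hcomp] at h
  have h' : Θ.eval₂ (Polynomial.aeval (R := ℤ) b).toRingHom c =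
      ((Θ.eval₂ (Polynomial.aeval (R := ℤ) (⟨b, hb⟩ : V)).toRingHom ⟨c, hc⟩ : V) : F) := h.symm
  rw [h']
  exact Subtype.property _

/-- Kronecker's shape, evaluated -/
theorem eval₂_kron {S : Type*} [CommRing S] (q : ℕ) (Θ : Polynomial (Polynomial ℤ)) (b c : S) :
    (((Polynomial.X : Polynomial (Polynomial ℤ)) ^ q -
          Polynomial.C (Polynomial.X : Polynomial ℤ)) *
        (Polynomial.X - Polynomial.C ((Polynomial.X : Polynomial ℤ) ^ q)) +
      Polynomial.C (Polynomial.C (q : ℤ)) * Θ).eval₂ (Polynomial.aeval (R := ℤ) b).toRingHom c =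
    (c ^ q - b) * (c - b ^ q) + (q : S) * Θ.eval₂ (Polynomial.aeval (R := ℤ) b).toRingHom c := by
  simp [Polynomial.eval₂_add, Polynomial.eval₂_mul, Polynomial.eval₂_sub, Polynomial.eval₂_pow]

/-- the residue of `a b c` is a power of the residue of `a` -/
theorem exists_pow_congr (V : ValuationSubring F) {q : ℕ} (hq : q.Prime)
    (hqV : (q : F) ∈ V.nonunits) {a b c T : F} (ha : a ∈ V) (hb : b ∈ V) (hc : c ∈ V)
    (hT : T ∈ V) (hfrob : b - a ^ q ∈ V.nonunits)
    (hkron : (c ^ q - b) * (c - b ^ q) + (q : F) * T = 0) :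
    ∃ k : ℕ, 0 < k ∧ a * b * c - a ^ k ∈ V.nonunits := by
  haveI : Fact q.Prime := ⟨hq⟩
  set π := IsLocalRing.residue V with hπ
  set A : V := ⟨a, ha⟩ with hA
  set B : V := ⟨b, hb⟩ with hB
  set C : V := ⟨c, hc⟩ with hC
  set T' : V := ⟨T, hT⟩ with hT'
  have hfrob' : π B = π A ^ q := by
    have h3 : ((B - A ^ q : V) : F) ∈ V.nonunits := hfrob
    rw [ValuationSubring.coe_mem_nonunits_iff, ← IsLocalRing.residue_eq_zero_iff, map_sub,
      map_pow, sub_eq_zero] at h3
    exact h3
  have hq0 : ((q : ℕ) : IsLocalRing.ResidueField V) = 0 := by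
    have h3 : (((q : ℕ) : V) : F) ∈ V.nonunits := by
      simpa using hqV
    rw [ValuationSubring.coe_mem_nonunits_iff, ← IsLocalRing.residue_eq_zero_iff,
      map_natCast] at h3
    exact h3
  haveI hCharP : CharP (IsLocalRing.ResidueField V) q :=
    (CharP.charP_iff_prime_eq_zero hq).mpr hq0
  have hκ : (π C ^ q - π B) * (π C - π B ^ q) = 0 := by
    have h0 : (C ^ q - B) * (C - B ^ q) + ((q : ℕ) : V) * T' = 0 := by
      apply Subtype.ext
      simpa using hkron
    have h := congrArg π h0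
    rw [map_add, map_mul, map_mul, map_sub, map_sub, map_pow, map_pow, map_natCast, hq0,
      zero_mul, add_zero, map_zero] at h
    exact h
  have key : ∀ k, π (A * B * C) = π A ^ k → a * b * c - a ^ k ∈ V.nonunits := by
    intro k hk
    have h3 : ((A * B * C - A ^ k : V) : F) ∈ V.nonunits := by
      rw [ValuationSubring.coe_mem_nonunits_iff, ← IsLocalRing.residue_eq_zero_iff, map_sub,
        map_pow, sub_eq_zero]
      exact hk
    exact h3
  rcases mul_eq_zero.mp hκ with hA | hB
  · have h1 : π C ^ q = π A ^ q := by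
      rw [← hfrob']
      exact sub_eq_zero.mp hA
    haveI : ExpChar (IsLocalRing.ResidueField V) q := ExpChar.prime hq
    have h2 : π C = π A := frobenius_inj (IsLocalRing.ResidueField V) q h1
    refine ⟨q + 2, by omega, key _ ?_⟩
    rw [map_mul, map_mul, hfrob', h2]
    ring
  · have h2 : π C = π B ^ q := sub_eq_zero.mp hB
    refine ⟨1 + q + q * q, by omega, key _ ?_⟩
    rw [map_mul, map_mul, h2, hfrob']
    ring

end Kron

section Mid

variable {R E F F' : Type*} [CommRing R] [Field E] [Algebra R E]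
  [Field F] [Algebra E F] [Algebra R F] [IsScalarTower R E F]
  [Field F'] [Algebra E F'] [Algebra R F'] [IsScalarTower R E F']

/-- **Abstract `gauss₂`.**  `V` lies over `V'` along `α`; `j, j_q ∈ V'` with `j_q ≡ j ^ q`;
`c` a root of `Φ(α j_q, Y)`, `Φ` of Kronecker's shape; `j` has the Gauss property at `V'`.  Then
`x = α(j) α(j_q) c` has the Gauss property at `V`. -/
theorem gauss_mid_abs (α : F' →ₐ[E] F) (V' : ValuationSubring F') (V : ValuationSubring F)
    (hmid : V.comap (α : F' →+* F) = V') (w : R) {q : ℕ} (hq : q.Prime)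
    (hqV' : (q : F') ∈ V'.nonunits) (hbase' : ∀ r : R, algebraMap R F' r ∈ V')
    {j jq : F'} {c : F} (hj : j ∈ V') (hjq : jq ∈ V') (hfrob : jq - j ^ q ∈ V'.nonunits)
    (Φ Θ : Polynomial (Polynomial ℤ)) (hΦ : Φ.Monic)
    (hΘ : Φ = ((Polynomial.X : Polynomial (Polynomial ℤ)) ^ q -
          Polynomial.C (Polynomial.X : Polynomial ℤ)) *
        (Polynomial.X - Polynomial.C ((Polynomial.X : Polynomial ℤ) ^ q)) +
      Polynomial.C (Polynomial.C (q : ℤ)) * Θ)
    (hmod : Φ.eval₂ (Polynomial.aeval (R := ℤ) (α jq)).toRingHom c = 0)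
    (hgauss : ∀ p : Polynomial R, ¬ Polynomial.C w ∣ p →
      aeval j p ≠ 0 ∧ aeval j p ∈ V' ∧ (aeval j p)⁻¹ ∈ V')
    (p : Polynomial R) (hp : ¬ Polynomial.C w ∣ p) :
    (aeval (α j * α jq * c) p)⁻¹ ∈ V := by
  have hmem : ∀ f, f ∈ V' → α f ∈ V := fun f hf => by
    rw [← hmid] at hf
    exact hf
  have hnon : ∀ f, f ∈ V'.nonunits → α f ∈ V.nonunits := fun f hf => by
    rw [← hmid, mem_nonunits_comap_iff] at hf
    exact hf
  have hbase : ∀ r : R, algebraMap R F r ∈ V := by
    intro r
    have e : α (algebraMap R F' r) = algebraMap R F r := by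
      rw [IsScalarTower.algebraMap_apply R E F', IsScalarTower.algebraMap_apply R E F,
        α.commutes]
    rw [← e]
    exact hmem _ (hbase' r)
  have hj1 : α j ∈ V := hmem _ hj
  have hjq1 : α jq ∈ V := hmem _ hjq
  -- `c` is integral over `ℤ[α j_q]`
  have hc : c ∈ V := by
    have hint : IsIntegral V c := by
      refine ⟨Φ.map (Polynomial.aeval (R := ℤ) (⟨α jq, hjq1⟩ : V)).toRingHom, hΦ.map _, ?_⟩
      rw [Polynomial.eval₂_map]
      rw [← hmod]
      congr 1
      apply Polynomial.ringHom_ext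
      · intro n
        simp
      · simp
    obtain ⟨y, hy⟩ := IsIntegrallyClosed.isIntegral_iff (R := V) (K := F) |>.mp hint
    rw [← hy]
    exact y.2
  have hqV : (q : F) ∈ V.nonunits := by
    have h := hnon _ hqV'
    rwa [map_natCast] at h
  have hfrob1 : α jq - α j ^ q ∈ V.nonunits := by
    have h := hnon _ hfrob
    rwa [map_sub, map_pow] at h
  have hkron : (c ^ q - α jq) * (c - α jq ^ q) +
      (q : F) * Θ.eval₂ (Polynomial.aeval (R := ℤ) (α jq)).toRingHom c = 0 := by
    rw [← eval₂_kron, ← hΘ]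
    exact hmod
  obtain ⟨k, hk0, hk⟩ := exists_pow_congr V hq hqV hj1 hjq1 hc
    (eval₂_aeval_mem V hjq1 hc Θ) hfrob1 hkron
  have hx : α j * α jq * c ∈ V := V.mul_mem _ _ (V.mul_mem _ _ hj1 hjq1) hc
  have hcong := aeval_sub_aeval_mem_nonunits V hbase hx (pow_mem hj1 k) hk p
  have hu := hgauss (Polynomial.expand R k p) (not_C_dvd_expand hk0 hp)
  have e : aeval (α j ^ k) p = α (aeval j (Polynomial.expand R k p)) := by
    rw [Polynomial.expand_aeval, ← map_pow]
    exact Polynomial.aeval_algHom_apply (α.restrictScalars R) _ p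
  refine inv_mem_of_sub_mem_nonunits V (b := aeval (α j ^ k) p) ?_ ?_ ?_ hcong
  · rw [e]
    exact (_root_.map_ne_zero _).mpr hu.1
  · rw [e]
    exact hmem _ hu.2.1
  · rw [e, ← map_inv₀]
    exact hmem _ hu.2.2

end Mid

end Fermat.Agent.S36.Mod3.H860

end
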