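import Fermat.Agent.S36.Mod3.Spec
import Fermat.Agent.S36.Mod3.H860.SheetAbs
import Fermat.Agent.A2.Mod.H13.Frame
import Fermat.Agent.A2.Mod.H142.S2Frob
import Fermat.Agent.A2.Mod.H873.L13
import Fermat.Agent.A2.Mod.H553.Fricke
import Fermat.Agent.A2.Mod.H994.S2
import Fermat.Agent.S28.H88.Kronecker
import Fermat.Agent.S28.H739.Integrality

/-!
# S36 / MOD3 — leaf SHEET (helper860): `base_i` and `gauss_i` of `Eng.TripleCtx` (Spec v1.3)

For the concrete objects of `Mod3/Spec.lean` (`V₁ = V∞`, `V₃ = V₁.comap W`, `V₂` any valuation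
ring of `F_E(M q²)` with `V₂.comap α = V₁'`), and the coordinate `x = j · j_q · j_{q²}`:

* `base_i`  : `R ⊆ V_i`;
* `gauss_i` : for `p ∈ R[X]` with a coefficient not divisible by `w`, `p(x)⁻¹ ∈ V_i`
  (the residue of `x` in the residue field of `V_i` is transcendental over `k = R / w`).

Route.  `V₁`: `x` is polar of order `1 + q + q²` (L3, `H816.vinfGauss`).  `V₃`: `W x` is polar
of order `M q² + M q + M`.  `V₂`: Kronecker's congruence `Φ_q(X, Y) ≡ (X^q - Y)(X - Y^q) mod q`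
(`S28.h88_kronecker_int`) and `Φ_q(j_{q²}, j_q) = 0` show that the residue of `j_{q²}` is
`j̄^{q²}` or `j̄`; with `j̄_q = j̄^q` the residue of `x` is `j̄^k`, `k ∈ {1 + q + q², q + 2}`, and
`p(j^k) = α (p(X^k)(j'))` is a unit by L3 at the level `M q`.  Neither `V₂ ≠ V₁` nor the
Eisenstein splitting is used.
-/

set_option autoImplicit false
set_option linter.style.haveILetI false
set_option linter.unusedSectionVars false
set_option linter.unusedVariables false
set_option synthInstance.maxHeartbeats 400000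
set_option maxHeartbeats 1600000

noncomputable section

namespace Fermat.Agent.S36.Mod3.H860

open ModularCurve AlgebraicCurve Polynomial
open Fermat.Agent.S18.H138 (chart)
open Fermat.Agent.S36.Eng
open Fermat.Agent.A2.Mod

/-! ## `V∞`: polar elements -/

section Polar

variable {P : ValuationSubring Qb} {E : IntermediateField ℚ Qb}

/-- **Gauss units** (L3 + L2): for a polar `u` and `w ∤ p`, `p(u)` is a NONZERO unit of `V∞`. -/
theorem polar_unit [IsDiscreteValuationRing (RE P E)] {w : RE P E} (hw : Irreducible w)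
    {N : ℕ} (hN : N ≠ 0) {V : ValuationSubring (FE E N)} (hV : IsVinf P E N V)
    {u : FE E N} {a : ℕ} (ha : 0 < a) (hu : H13.IsPolar E N u a)
    {p : Polynomial (RE P E)} (hp : ¬ Polynomial.C w ∣ p) :
    aeval u p ≠ 0 ∧ aeval u p ∈ V ∧ (aeval u p)⁻¹ ∈ V := by
  obtain ⟨g, hg, e⟩ := hu
  have key : ∀ p' : Polynomial (RE P E), ¬ Polynomial.C w ∣ p' →
      aeval u p' ∈ V ∧ (aeval u p')⁻¹ ∈ V := by
    intro p' hp'
    have h3 := H816.vinfGauss P E w N hN inferInstance hw V hV u (A2.H708.castA (RE P E) g) a ha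
      (by rw [e]; exact H553.coeffEmb_castQ (P := P) g)
      (fun n hn => by
        show ((g.coeff n : ℤ) : RE P E) = 0
        rw [hg.1 n hn, Int.cast_zero])
      (by
        have : (A2.H708.castA (RE P E) g).coeff (-(a : ℤ)) = 1 := by
          show ((g.coeff (-(a : ℤ)) : ℤ) : RE P E) = 1
          rw [hg.2, Int.cast_one]
        rw [this]
        exact isUnit_one)
      p' hp'
    exact h3
  refine ⟨?_, key p hp⟩
  intro h0
  have hpw : ¬ Polynomial.C w ∣ p + Polynomial.C w := by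
    intro h
    exact hp ((dvd_add_left (dvd_refl _)).mp h)
  have h1 := (key (p + Polynomial.C w) hpw).2
  rw [map_add, h0, zero_add, Polynomial.aeval_C] at h1
  have hL2 := H553.vinfBasic P E w N hN inferInstance hw V hV
  exact hL2.1.inv_not_mem h1

end Polar

/-! ## The coordinate `x = j j_q j_{q²}` at `V₁ = V∞` and `V₃ = V∞ ∘ W` -/

section Ends

variable {P : ValuationSubring Qb} {E : IntermediateField ℚ Qb}
  (M q : ℕ) [NeZero M] [NeZero q] [NeZero (M * q)]

theorem isPolar_x3E : H13.IsPolar E (M * q * q) (x3E E M q) (1 + q + q * q) :=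
  ((H13.isPolar_jE 1 (one_dvd _)).mul (H13.isPolar_jE q (Dvd.intro_left (M * q) rfl))).mul
    (H13.isPolar_jE (q * q) ⟨M, by ring⟩)

theorem isPolar_fricke_x3E {W : FE E (M * q * q) ≃ₐ[E] FE E (M * q * q)}
    (hW : IsFricke E (M * q * q) W) :
    H13.IsPolar E (M * q * q) (W (x3E E M q)) (M * q * q + M * q + M) := by
  have h1 : W (j1 E M q) = jE E (M * q * q) (M * q * q) (dvd_refl _) :=
    hW.1 1 (M * q * q) (one_dvd _) (dvd_refl _) (one_mul _)
  have h2 : W (jq E M q) = jE E (M * q * q) (M * q) (dvd_mul_right (M * q) q) :=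
    hW.1 q (M * q) (Dvd.intro_left (M * q) rfl) (dvd_mul_right (M * q) q) (by ring)
  have h3 : W (jqq E M q) = jE E (M * q * q) M ⟨q * q, by ring⟩ :=
    hW.1 (q * q) M ⟨M, by ring⟩ ⟨q * q, by ring⟩ (by ring)
  rw [x3E, map_mul, map_mul, h1, h2, h3]
  exact ((H13.isPolar_jE (M * q * q) (dvd_refl _)).mul
    (H13.isPolar_jE (M * q) (dvd_mul_right (M * q) q))).mul (H13.isPolar_jE M ⟨q * q, by ring⟩)

variable {M q}

/-- `gauss₁`. -/
theorem gauss_vinf [IsDiscreteValuationRing (RE P E)] {w : RE P E} (hw : Irreducible w)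
    {V₁ : ValuationSubring (FE E (M * q * q))} (hV : IsVinf P E (M * q * q) V₁)
    (p : Polynomial (RE P E)) (hp : ∃ i, ¬ w ∣ p.coeff i) :
    (aeval (x3E E M q) p)⁻¹ ∈ V₁ :=
  (polar_unit hw (NeZero.ne _) hV (by omega) (isPolar_x3E M q) (not_C_dvd_of_exists_coeff hp)).2.2

/-- `gauss₃`. -/
theorem gauss_vzero [IsDiscreteValuationRing (RE P E)] {w : RE P E} (hw : Irreducible w)
    {V₁ : ValuationSubring (FE E (M * q * q))} (hV : IsVinf P E (M * q * q) V₁)
    {W : FE E (M * q * q) ≃ₐ[E] FE E (M * q * q)} (hW : IsFricke E (M * q * q) W)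
    (p : Polynomial (RE P E)) (hp : ∃ i, ¬ w ∣ p.coeff i) :
    (aeval (x3E E M q) p)⁻¹ ∈
      V₁.comap (W : FE E (M * q * q) →+* FE E (M * q * q)) := by
  have h := (polar_unit hw (NeZero.ne _) hV
    (Nat.add_pos_right _ (Nat.pos_of_ne_zero (NeZero.ne M)))
    (isPolar_fricke_x3E M q hW) (not_C_dvd_of_exists_coeff hp)).2.2
  have e : W (aeval (x3E E M q) p) = aeval (W (x3E E M q)) p :=
    (Polynomial.aeval_algHom_apply (W.toAlgHom.restrictScalars (RE P E)) (x3E E M q) p).symm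
  rw [ValuationSubring.mem_comap]
  show W (aeval (x3E E M q) p)⁻¹ ∈ V₁
  rw [map_inv₀, e]
  exact h

end Ends

/-! ## The middle valuation ring `V₂` -/

section Mid

variable {P : ValuationSubring Qb} {E : IntermediateField ℚ Qb}
  {M q : ℕ} [NeZero M] [NeZero q] [NeZero (M * q)]

theorem alpha_j1 : αE E (M * q) q (jE E (M * q) 1 (one_dvd _)) = j1 E M q :=
  H553.αE_jE E (M * q) q 1 (one_dvd _)

theorem alpha_jq : αE E (M * q) q (jE E (M * q) q (dvd_mul_left q M)) = jq E M q :=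
  H553.αE_jE E (M * q) q q (dvd_mul_left q M)

/-- `Φ_q(j_{q²}, j_q) = 0` in `F_E(M q²)`. -/
theorem modEq_jqq (D : S28.ModPolyData q) :
    D.Φ.eval₂ (Polynomial.aeval (R := ℤ) (jq E M q)).toRingHom (jqq E M q) = 0 :=
  H873.eval₂_eq_zero_of_int E (M * q * q) D.Φ _ _ _ _
    (H873.coe_jE_int E (M * q * q) (q * q) _) (H873.coe_jE_int E (M * q * q) q _)
    (S28.H739.modPoly_eval_level D q)

/-- `base₂`. -/
theorem base_mid [IsDiscreteValuationRing (RE P E)]
    {V₁' : ValuationSubring (FE E (M * q))} (hV' : IsVinf P E (M * q) V₁')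
    {V₂ : ValuationSubring (FE E (M * q * q))}
    (hmid : V₂.comap (αE E (M * q) q : FE E (M * q) →+* FE E (M * q * q)) = V₁')
    (r : RE P E) : algebraMap (RE P E) (FE E (M * q * q)) r ∈ V₂ := by
  have h1 : algebraMap (RE P E) (FE E (M * q)) r ∈ V₁' := (H13.isOver_of_isVinf hV').mem r
  rw [← hmid, ValuationSubring.mem_comap] at h1
  have e : (αE E (M * q) q) (algebraMap (RE P E) (FE E (M * q)) r) =
      algebraMap (RE P E) (FE E (M * q * q)) r := (αE E (M * q) q).commutes (r : E)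
  rw [← e]
  exact h1

/-- `gauss₂`. -/
theorem gauss_mid [IsDiscreteValuationRing (RE P E)] {w : RE P E} (hw : Irreducible w)
    (hq : q.Prime) (hP : P.LiesOverPrime q)
    {V₁' : ValuationSubring (FE E (M * q))} (hV' : IsVinf P E (M * q) V₁')
    {V₂ : ValuationSubring (FE E (M * q * q))}
    (hmid : V₂.comap (αE E (M * q) q : FE E (M * q) →+* FE E (M * q * q)) = V₁')
    (p : Polynomial (RE P E)) (hp : ∃ i, ¬ w ∣ p.coeff i) :
    (aeval (x3E E M q) p)⁻¹ ∈ V₂ := by
  haveI : Fact q.Prime := ⟨hq⟩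
  have hL2 := H553.vinfBasic P E w (M * q) (NeZero.ne _) inferInstance hw V₁' hV'
  obtain ⟨D⟩ := S28.H807.nonempty_modPolyData q hq
  obtain ⟨Θ, hΘ⟩ := S28.h88_kronecker_int q D
  have hmod : D.Φ.eval₂ (Polynomial.aeval (R := ℤ)
      (αE E (M * q) q (jE E (M * q) q (dvd_mul_left q M)))).toRingHom (jqq E M q) = 0 := by
    rw [alpha_jq]
    exact modEq_jqq (E := E) (M := M) D
  have hqV' : ((q : ℕ) : FE E (M * q)) ∈ V₁'.nonunits := by
    have h := (V₁'.mem_nonunits_iff).mpr (H994.val_natCast_lt_one hP hV')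
    rwa [map_natCast] at h
  have hfrob : jE E (M * q) q (dvd_mul_left q M) - jE E (M * q) 1 (one_dvd _) ^ q ∈
      V₁'.nonunits := (V₁'.mem_nonunits_iff).mpr (H994.val_frobInf hP hV')
  have h := gauss_mid_abs (R := RE P E) (αE E (M * q) q) V₁' V₂ hmid w hq hqV'
    (H13.isOver_of_isVinf hV').mem (hL2.2.2 1 (one_dvd _)).1 (hL2.2.2 q (dvd_mul_left q M)).1
    hfrob D.Φ Θ D.monic hΘ hmod
    (fun p' hp' => polar_unit hw (NeZero.ne _) hV' one_pos (H13.isPolar_jE 1 (one_dvd _)) hp')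
    p (not_C_dvd_of_exists_coeff hp)
  rw [alpha_j1, alpha_jq] at h
  exact h

end Mid

/-! ## The leaf -/

/-- **MOD3 leaf SHEET** (`Mod3.LeafSheet`, verbatim): `base_i` and `gauss_i`. -/
theorem leafSheet : Mod3.LeafSheet := by
  intro P E M q _ _ _ w hStd V₁' V₂' V₁ V₂ V₃ W' W hO
  haveI : IsDiscreteValuationRing (RE P E) := hStd.unram.1.dvr
  refine ⟨?_, ?_, ?_, ?_, ?_, ?_⟩
  · exact (H13.isOver_of_isVinf hO.vinf).mem
  · exact base_mid hO.vinf' hO.mid
  · rw [hO.vzero]
    exact (H13.isOver_comap hO.vinf W).mem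
  · exact gauss_vinf hStd.unif hO.vinf
  · exact gauss_mid hStd.unif hStd.q_prime hStd.lies_over hO.vinf' hO.mid
  · rw [hO.vzero]
    exact gauss_vzero hStd.unif hO.vinf hO.fricke

end Fermat.Agent.S36.Mod3.H860

end
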